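import Mathlib.Analysis.SpecialFunctions.Gamma.Basic
import Mathlib.Topology.ContinuousMap.Weierstrass

/-!
# Approximation of step functions for Karamata's method

For `ρ > 0` the Gamma mean of `h` is `(1 / Γ ρ) ∫₀^∞ t ^ (ρ - 1) e ^ (-t) h (e ^ (-t)) dt`. A
function on `[0, 1]` with one jump lies between two polynomials with almost the same Gamma mean.
-/

set_option autoImplicit false

noncomputable section

namespace FA.Karamata

open MeasureTheory Set Filter Topology
open scoped Polynomial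

/-- The Gamma density. -/
def kern (ρ t : ℝ) : ℝ := t ^ (ρ - 1) * Real.exp (-t)

/-- The Gamma mean of `h (e ^ (-t))`. -/
def gammaMean (ρ : ℝ) (h : ℝ → ℝ) : ℝ :=
  (Real.Gamma ρ)⁻¹ * ∫ t in Ioi (0 : ℝ), kern ρ t * h (Real.exp (-t))

/-- The moments of a polynomial against the Gamma density. -/
def polyMean (ρ : ℝ) (R : ℝ[X]) : ℝ := R.sum fun m c => c * (1 / ((m : ℝ) + 1)) ^ ρ

variable {ρ : ℝ}

theorem integrable_kern (hρ : 0 < ρ) : IntegrableOn (kern ρ) (Ioi 0) := by
  refine (Real.GammaIntegral_convergent hρ).congr_fun (fun t _ => ?_) measurableSet_Ioi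
  rw [kern, mul_comm]

theorem kern_nonneg {t : ℝ} (ht : 0 < t) : 0 ≤ kern ρ t := by
  rw [kern]
  positivity

theorem exp_neg_mem {t : ℝ} (ht : 0 < t) : Real.exp (-t) ∈ Icc (0 : ℝ) 1 :=
  ⟨(Real.exp_pos _).le, Real.exp_le_one_iff.2 (by linarith)⟩

theorem integrable_kern_mul (hρ : 0 < ρ) {h : ℝ → ℝ} (hm : Measurable h) {M : ℝ}
    (hb : ∀ y ∈ Icc (0 : ℝ) 1, |h y| ≤ M) :
    IntegrableOn (fun t => kern ρ t * h (Real.exp (-t))) (Ioi 0) := by
  refine (integrable_kern hρ).mul_bdd (hm.comp (by fun_prop)).aestronglyMeasurable (c := M) ?_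
  rw [ae_restrict_iff' measurableSet_Ioi]
  exact Eventually.of_forall fun t ht => by
    rw [Real.norm_eq_abs]
    exact hb _ (exp_neg_mem ht)

theorem integrable_kern_mul_continuous (hρ : 0 < ρ) {h : ℝ → ℝ} (hc : Continuous h) :
    IntegrableOn (fun t => kern ρ t * h (Real.exp (-t))) (Ioi 0) := by
  obtain ⟨M, hM⟩ := isCompact_Icc.exists_bound_of_continuousOn (s := Icc (0 : ℝ) 1) hc.continuousOn
  exact integrable_kern_mul hρ hc.measurable fun y hy => by simpa using hM y hy

theorem gammaMean_mono (hρ : 0 < ρ) {f g : ℝ → ℝ}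
    (hf : IntegrableOn (fun t => kern ρ t * f (Real.exp (-t))) (Ioi 0))
    (hg : IntegrableOn (fun t => kern ρ t * g (Real.exp (-t))) (Ioi 0))
    (h : ∀ y ∈ Icc (0 : ℝ) 1, f y ≤ g y) : gammaMean ρ f ≤ gammaMean ρ g :=
  mul_le_mul_of_nonneg_left (setIntegral_mono_on hf hg measurableSet_Ioi fun _ ht =>
    mul_le_mul_of_nonneg_left (h _ (exp_neg_mem ht)) (kern_nonneg ht))
    (inv_nonneg.2 (Real.Gamma_pos_of_pos hρ).le)

theorem gammaMean_monomial (hρ : 0 < ρ) (m : ℕ) (c : ℝ) :
    gammaMean ρ (fun y => c * y ^ m) = c * (1 / ((m : ℝ) + 1)) ^ ρ := by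
  have e : EqOn (fun t => kern ρ t * (c * Real.exp (-t) ^ m))
      (fun t => c * (t ^ (ρ - 1) * Real.exp (-(((m : ℝ) + 1) * t)))) (Ioi 0) := fun t _ => by
    simp only [kern]
    rw [← Real.exp_nat_mul, show -(((m : ℝ) + 1) * t) = -t + (m : ℝ) * -t by ring, Real.exp_add]
    ring
  rw [gammaMean, setIntegral_congr_fun measurableSet_Ioi e, integral_const_mul,
    Real.integral_rpow_mul_exp_neg_mul_Ioi hρ (by positivity)]
  have := (Real.Gamma_pos_of_pos hρ).ne'
  field_simp

theorem gammaMean_polynomial (hρ : 0 < ρ) (R : ℝ[X]) :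
    gammaMean ρ (fun y => R.eval y) = polyMean ρ R := by
  induction R using Polynomial.induction_on' with
  | add p q hp hq =>
    rw [polyMean, Polynomial.sum_add_index _ _ _ (fun _ => zero_mul _) fun _ _ _ => add_mul _ _ _,
      ← polyMean, ← polyMean, ← hp, ← hq, gammaMean, gammaMean, gammaMean, ← mul_add,
      ← integral_add (integrable_kern_mul_continuous hρ (Polynomial.continuous _))
        (integrable_kern_mul_continuous hρ (Polynomial.continuous _))]
    simp only [Polynomial.eval_add, mul_add]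
  | monomial m c =>
    rw [polyMean, Polynomial.sum_monomial_index c
      (fun (m : ℕ) (c : ℝ) => c * (1 / ((m : ℝ) + 1)) ^ ρ) (zero_mul _)]
    simp only [Polynomial.eval_monomial]
    exact gammaMean_monomial hρ m c

theorem tendsto_gammaMean (hρ : 0 < ρ) {F : ℕ → ℝ → ℝ} {G : ℝ → ℝ} (hm : ∀ k, Measurable (F k))
    {M : ℝ} (hb : ∀ k, ∀ y ∈ Icc (0 : ℝ) 1, |F k y| ≤ M) {c : ℝ}
    (hlim : ∀ y, y ≠ c → Tendsto (fun k => F k y) atTop (𝓝 (G y))) :
    Tendsto (fun k => gammaMean ρ (F k)) atTop (𝓝 (gammaMean ρ G)) := by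
  refine (tendsto_integral_of_dominated_convergence (fun t => kern ρ t * M)
    (fun k => (integrable_kern_mul hρ (hm k) (hb k)).aestronglyMeasurable)
    ((integrable_kern hρ).mul_const M) (fun k => ?_) ?_).const_mul _
  · rw [ae_restrict_iff' measurableSet_Ioi]
    refine Eventually.of_forall fun t ht => ?_
    rw [norm_mul, Real.norm_eq_abs, Real.norm_eq_abs, abs_of_nonneg (kern_nonneg ht)]
    exact mul_le_mul_of_nonneg_left (hb k _ (exp_neg_mem ht)) (kern_nonneg ht)
  · have hne : ∀ᵐ t ∂(volume.restrict (Ioi (0 : ℝ))), t ≠ -Real.log c :=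
      ae_restrict_of_ae (Measure.ae_ne volume _)
    filter_upwards [hne] with t ht
    refine (hlim _ fun h => ht ?_).const_mul _
    rw [← h, Real.log_exp, neg_neg]

/-- A function on `[0, 1]` with one jump between two continuous functions is bracketed by
polynomials of almost the same Gamma mean. -/
theorem exists_polynomial_bracket (hρ : 0 < ρ) {u v : ℝ → ℝ} (hu : Continuous u)
    (hv : Continuous v) (c : ℝ) {ε : ℝ} (hε : 0 < ε) :
    ∃ p q : ℝ[X],
      (∀ y ∈ Icc (0 : ℝ) 1, p.eval y ≤ (if c ≤ y then u y else v y) ∧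
        (if c ≤ y then u y else v y) ≤ q.eval y) ∧
      polyMean ρ p ≤ gammaMean ρ (fun y => if c ≤ y then u y else v y) ∧
      gammaMean ρ (fun y => if c ≤ y then u y else v y) ≤ polyMean ρ q ∧
      polyMean ρ q - polyMean ρ p ≤ ε := by
  set G : ℝ → ℝ := fun y => if c ≤ y then u y else v y with hG
  set r : ℕ → ℝ → ℝ := fun k y => max 0 (min 1 (1 + (k : ℝ) * (y - c))) with hr
  set s : ℕ → ℝ → ℝ := fun k y => max 0 (min 1 ((k : ℝ) * (y - c))) with hs
  set U : ℕ → ℝ → ℝ := fun k y =>
    v y + max (u y - v y) 0 * r k y + min (u y - v y) 0 * s k y with hU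
  set W : ℕ → ℝ → ℝ := fun k y =>
    v y + max (u y - v y) 0 * s k y + min (u y - v y) 0 * r k y with hW
  have hUc : ∀ k, Continuous (U k) := fun k => by simp only [hU, hr, hs]; fun_prop
  have hWc : ∀ k, Continuous (W k) := fun k => by simp only [hW, hr, hs]; fun_prop
  have hr01 : ∀ k y, 0 ≤ r k y ∧ r k y ≤ 1 := fun k y =>
    ⟨le_max_left _ _, max_le zero_le_one (min_le_left _ _)⟩
  have hs01 : ∀ k y, 0 ≤ s k y ∧ s k y ≤ 1 := fun k y =>
    ⟨le_max_left _ _, max_le zero_le_one (min_le_left _ _)⟩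
  have hrs : ∀ k y, (c ≤ y → r k y = 1) ∧ (y < c → s k y = 0) := fun k y => by
    refine ⟨fun h => ?_, fun h => ?_⟩
    · have : (0 : ℝ) ≤ k * (y - c) := mul_nonneg (Nat.cast_nonneg k) (sub_nonneg.2 h)
      simp only [hr]
      rw [min_eq_left (by linarith), max_eq_right zero_le_one]
    · have : (k : ℝ) * (y - c) ≤ 0 :=
        mul_nonpos_of_nonneg_of_nonpos (Nat.cast_nonneg k) (sub_nonpos.2 h.le)
      simp only [hs]
      rw [min_eq_right (by linarith), max_eq_left this]
  have hbr : ∀ k y, W k y ≤ G y ∧ G y ≤ U k y := fun k y => by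
    have hd := max_add_min (u y - v y) 0
    have h1 := le_max_right (u y - v y) 0
    have h2 := min_le_right (u y - v y) 0
    rcases le_or_gt c y with h | h
    · simp only [hG, hU, hW, if_pos h, (hrs k y).1 h, mul_one]
      constructor <;>
        nlinarith [hs01 k y, mul_nonneg h1 (sub_nonneg.2 (hs01 k y).2),
          mul_nonpos_of_nonpos_of_nonneg h2 (sub_nonneg.2 (hs01 k y).2)]
    · simp only [hG, hU, hW, if_neg (not_le.2 h), (hrs k y).2 h, mul_zero, add_zero]
      constructor <;>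
        nlinarith [hr01 k y, mul_nonneg h1 (hr01 k y).1,
          mul_nonpos_of_nonpos_of_nonneg h2 (hr01 k y).1]
  obtain ⟨Mu, hMu⟩ := isCompact_Icc.exists_bound_of_continuousOn (s := Icc (0 : ℝ) 1)
    hu.continuousOn
  obtain ⟨Mv, hMv⟩ := isCompact_Icc.exists_bound_of_continuousOn (s := Icc (0 : ℝ) 1)
    hv.continuousOn
  have hbound : ∀ k, ∀ y ∈ Icc (0 : ℝ) 1,
      |U k y| ≤ 2 * (Mu + 2 * Mv) ∧ |W k y| ≤ 2 * (Mu + 2 * Mv) := fun k y hy => by
    have e1 := abs_le.1 (Real.norm_eq_abs (u y) ▸ hMu y hy)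
    have e2 := abs_le.1 (Real.norm_eq_abs (v y) ▸ hMv y hy)
    have h1 := le_max_right (u y - v y) 0
    have h2 := min_le_right (u y - v y) 0
    have h3 : max (u y - v y) 0 ≤ Mu + Mv := max_le (by linarith) (by linarith)
    have h4 : -(Mu + Mv) ≤ min (u y - v y) 0 := le_min (by linarith) (by linarith)
    simp only [hU, hW, abs_le]
    refine ⟨⟨?_, ?_⟩, ⟨?_, ?_⟩⟩ <;>
      nlinarith [mul_nonneg h1 (hr01 k y).1, mul_nonneg h1 (hs01 k y).1,
        mul_nonpos_of_nonpos_of_nonneg h2 (hr01 k y).1,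
        mul_nonpos_of_nonpos_of_nonneg h2 (hs01 k y).1,
        mul_le_of_le_one_right h1 (hr01 k y).2, mul_le_of_le_one_right h1 (hs01 k y).2,
        mul_nonneg (neg_nonneg.2 h2) (sub_nonneg.2 (hr01 k y).2),
        mul_nonneg (neg_nonneg.2 h2) (sub_nonneg.2 (hs01 k y).2)]
  have hlim : ∀ y, y ≠ c → Tendsto (fun k => U k y) atTop (𝓝 (G y)) ∧
      Tendsto (fun k => W k y) atTop (𝓝 (G y)) := fun y hy => by
    obtain ⟨k₀, hk₀⟩ := exists_nat_gt (1 / |y - c|)
    have hpos : 0 < |y - c| := abs_pos.2 (sub_ne_zero.2 hy)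
    have hev : ∀ᶠ k : ℕ in atTop, U k y = G y ∧ W k y = G y := by
      filter_upwards [eventually_ge_atTop k₀] with k hk
      have hk' : 1 ≤ (k : ℝ) * |y - c| := by
        rw [← div_le_iff₀ hpos]
        exact hk₀.le.trans (Nat.cast_le.2 hk)
      have hd := max_add_min (u y - v y) 0
      rcases lt_or_gt_of_ne hy with h | h
      · rw [abs_of_neg (sub_neg.2 h)] at hk'
        have e1 : r k y = 0 := by
          simp only [hr]
          rw [min_eq_right (by linarith), max_eq_left (by linarith)]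
        simp only [hU, hW, hG, if_neg (not_le.2 h), e1, (hrs k y).2 h]
        constructor <;> ring
      · rw [abs_of_pos (sub_pos.2 h)] at hk'
        have e1 : s k y = 1 := by
          simp only [hs]
          rw [min_eq_left hk', max_eq_right zero_le_one]
        simp only [hU, hW, hG, if_pos h.le, e1, (hrs k y).1 h.le]
        constructor <;> linarith
    exact ⟨tendsto_const_nhds.congr' (hev.mono fun k h => h.1.symm),
      tendsto_const_nhds.congr' (hev.mono fun k h => h.2.symm)⟩
  have hU' := tendsto_gammaMean hρ (fun k => (hUc k).measurable) (fun k y hy => (hbound k y hy).1)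
    fun y hy => (hlim y hy).1
  have hW' := tendsto_gammaMean hρ (fun k => (hWc k).measurable) (fun k y hy => (hbound k y hy).2)
    fun y hy => (hlim y hy).2
  obtain ⟨k, hkU, hkW⟩ := ((hU'.eventually (Iio_mem_nhds (lt_add_of_pos_right _
    (show 0 < ε / 4 by positivity)))).and (hW'.eventually (Ioi_mem_nhds (sub_lt_self _
    (show 0 < ε / 4 by positivity))))).exists
  obtain ⟨q, hq⟩ := exists_polynomial_near_of_continuousOn 0 1 (fun y => U k y + ε / 8)
    ((hUc k).add continuous_const).continuousOn (ε / 8) (by positivity)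
  obtain ⟨p, hp⟩ := exists_polynomial_near_of_continuousOn 0 1 (fun y => W k y - ε / 8)
    ((hWc k).sub continuous_const).continuousOn (ε / 8) (by positivity)
  have hGm : Measurable G := Measurable.ite (measurableSet_Ici) hu.measurable hv.measurable
  have hGb : ∀ y ∈ Icc (0 : ℝ) 1, |G y| ≤ 2 * (Mu + 2 * Mv) := fun y hy =>
    abs_le.2 ⟨(abs_le.1 (hbound k y hy).2).1.trans (hbr k y).1,
      (hbr k y).2.trans (abs_le.1 (hbound k y hy).1).2⟩
  have hGi := integrable_kern_mul hρ hGm hGb
  have hpq : ∀ y ∈ Icc (0 : ℝ) 1, p.eval y ≤ G y ∧ G y ≤ q.eval y := fun y hy => by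
    have h1 := abs_lt.1 (hp y hy)
    have h2 := abs_lt.1 (hq y hy)
    exact ⟨by linarith [(hbr k y).1], by linarith [(hbr k y).2]⟩
  have hconst : ∀ a : ℝ, gammaMean ρ (fun _ => a) = a := fun a => by
    simpa using gammaMean_monomial hρ 0 a
  have hadd : ∀ (f : ℝ → ℝ), Continuous f → ∀ a : ℝ,
      gammaMean ρ (fun y => f y + a) = gammaMean ρ f + a := fun f hf a => by
    have e : gammaMean ρ (fun y => f y + a) = gammaMean ρ f + gammaMean ρ (fun _ => a) := by
      rw [gammaMean, gammaMean, gammaMean, ← mul_add,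
        ← integral_add (integrable_kern_mul_continuous hρ hf)
          (integrable_kern_mul_continuous hρ continuous_const)]
      simp only [mul_add]
    rw [e, hconst]
  refine ⟨p, q, hpq, ?_, ?_, ?_⟩
  · rw [← gammaMean_polynomial hρ]
    exact gammaMean_mono hρ (integrable_kern_mul_continuous hρ p.continuous) hGi
      fun y hy => (hpq y hy).1
  · rw [← gammaMean_polynomial hρ]
    exact gammaMean_mono hρ hGi (integrable_kern_mul_continuous hρ q.continuous)
      fun y hy => (hpq y hy).2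
  · rw [← gammaMean_polynomial hρ, ← gammaMean_polynomial hρ]
    have h1 : gammaMean ρ (fun y => q.eval y) ≤ gammaMean ρ (U k) + ε / 4 := by
      rw [← hadd _ (hUc k)]
      exact gammaMean_mono hρ (integrable_kern_mul_continuous hρ q.continuous)
        (integrable_kern_mul_continuous hρ ((hUc k).add continuous_const))
        fun y hy => by linarith [(abs_lt.1 (hq y hy)).2]
    have h2 : gammaMean ρ (W k) + -(ε / 4) ≤ gammaMean ρ (fun y => p.eval y) := by
      rw [← hadd _ (hWc k)]
      exact gammaMean_mono hρ (integrable_kern_mul_continuous hρ ((hWc k).add continuous_const))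
        (integrable_kern_mul_continuous hρ p.continuous)
        fun y hy => by linarith [(abs_lt.1 (hp y hy)).1]
    linarith

end FA.Karamata
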