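import Fermat.Agent.Karamata.Approximation
import Mathlib.Analysis.SpecificLimits.Normed

/-!
# Power series weighted by a polynomial in `x ^ n`

If `(1 - x) ^ ρ ∑ a n x ^ n → C` then `(1 - x) ^ ρ ∑ a n x ^ n R (x ^ n) → C ∑ R_m / (m + 1) ^ ρ`,
as `(1 - x) / (1 - x ^ (m + 1)) → 1 / (m + 1)`.
-/

set_option autoImplicit false

noncomputable section

namespace FA.Karamata

open Filter Topology Set Finset
open scoped Polynomial

/-- `∑ a n x ^ n R (x ^ n)`. -/
def weightedSum (a : ℕ → ℝ) (R : ℝ → ℝ) (x : ℝ) : ℝ := ∑' n, a n * x ^ n * R (x ^ n)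

variable {a : ℕ → ℝ}

theorem pow_mem_Icc {x : ℝ} (hx : x ∈ Set.Ioo (0 : ℝ) 1) (n : ℕ) :
    x ^ n ∈ Set.Icc (0 : ℝ) 1 :=
  ⟨pow_nonneg hx.1.le n, pow_le_one₀ hx.1.le hx.2.le⟩

theorem summable_weighted (hs : ∀ x ∈ Set.Ioo (0 : ℝ) 1, Summable fun n => a n * x ^ n)
    {R : ℝ → ℝ} {M : ℝ} (hR : ∀ y ∈ Set.Icc (0 : ℝ) 1, |R y| ≤ M) {x : ℝ}
    (hx : x ∈ Set.Ioo (0 : ℝ) 1) : Summable fun n => a n * x ^ n * R (x ^ n) := by
  refine ((hs x hx).norm.mul_right M).of_norm_bounded fun n => ?_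
  rw [norm_mul (a n * x ^ n), Real.norm_eq_abs (R _)]
  exact mul_le_mul_of_nonneg_left (hR _ (pow_mem_Icc hx n)) (norm_nonneg _)

theorem summable_weighted_continuous (hs : ∀ x ∈ Set.Ioo (0 : ℝ) 1, Summable fun n => a n * x ^ n)
    {R : ℝ → ℝ} (hR : Continuous R) {x : ℝ} (hx : x ∈ Set.Ioo (0 : ℝ) 1) :
    Summable fun n => a n * x ^ n * R (x ^ n) := by
  obtain ⟨M, hM⟩ := isCompact_Icc.exists_bound_of_continuousOn (s := Set.Icc (0 : ℝ) 1)
    hR.continuousOn
  exact summable_weighted hs (fun y hy => by simpa using hM y hy) hx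

theorem eventually_mem_Ioo : ∀ᶠ x : ℝ in 𝓝[<] 1, x ∈ Set.Ioo (0 : ℝ) 1 :=
  Ioo_mem_nhdsLT zero_lt_one

theorem tendsto_one_sub_div (m : ℕ) :
    Tendsto (fun x : ℝ => (1 - x) / (1 - x ^ (m + 1))) (𝓝[<] 1) (𝓝 (1 / ((m : ℝ) + 1))) := by
  have h : Tendsto (fun x : ℝ => 1 / ∑ i ∈ range (m + 1), x ^ i) (𝓝[<] 1)
      (𝓝 (1 / ∑ i ∈ range (m + 1), (1 : ℝ) ^ i)) :=
    ((continuous_finsetSum _ fun i _ => continuous_pow i).tendsto 1 |>.inv₀ (by
      simp; positivity)).congr (fun x => (one_div _).symm) |>.mono_left nhdsWithin_le_nhds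
      |>.trans (by simp)
  simp only [one_pow, sum_const, card_range, nsmul_eq_mul, mul_one, Nat.cast_add,
    Nat.cast_one] at h
  refine h.congr' ?_
  filter_upwards [eventually_mem_Ioo] with x hx
  have h1 : 1 - x ≠ 0 := by linarith [hx.2]
  rw [← geom_sum_mul_neg x (m + 1), mul_comm, ← div_div, div_self h1]

theorem tendsto_pow_nhdsLT (m : ℕ) :
    Tendsto (fun x : ℝ => x ^ (m + 1)) (𝓝[<] 1) (𝓝[<] 1) := by
  refine tendsto_nhdsWithin_iff.2 ⟨?_, ?_⟩
  · simpa using ((continuous_pow (m + 1)).tendsto (1 : ℝ)).mono_left nhdsWithin_le_nhds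
  · filter_upwards [eventually_mem_Ioo] with x hx
    exact pow_lt_one₀ hx.1.le hx.2 (by omega)

/-- The effect of a polynomial weight on the Abel asymptotic. -/
theorem tendsto_weightedSum {ρ C : ℝ}
    (hs : ∀ x ∈ Set.Ioo (0 : ℝ) 1, Summable fun n => a n * x ^ n)
    (h : Tendsto (fun x => (1 - x) ^ ρ * ∑' n, a n * x ^ n) (𝓝[<] 1) (𝓝 C)) (R : ℝ[X]) :
    Tendsto (fun x => (1 - x) ^ ρ * weightedSum a (fun y => R.eval y) x) (𝓝[<] 1)
      (𝓝 (C * polyMean ρ R)) := by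
  induction R using Polynomial.induction_on' with
  | add p q hp hq =>
    rw [polyMean, Polynomial.sum_add_index _ _ _ (fun _ => zero_mul _) fun _ _ _ => add_mul _ _ _,
      ← polyMean, ← polyMean, mul_add]
    refine (hp.add hq).congr' ?_
    filter_upwards [eventually_mem_Ioo] with x hx
    rw [← mul_add, weightedSum, weightedSum, weightedSum,
      ← (summable_weighted_continuous hs (Polynomial.continuous p) hx).tsum_add
        (summable_weighted_continuous hs (Polynomial.continuous q) hx)]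
    simp only [Polynomial.eval_add, mul_add]
  | monomial m c =>
    rw [polyMean, Polynomial.sum_monomial_index c
      (fun (m : ℕ) (c : ℝ) => c * (1 / ((m : ℝ) + 1)) ^ ρ) (zero_mul _)]
    have h1 := ((h.comp (tendsto_pow_nhdsLT m)).mul
      ((tendsto_one_sub_div m).rpow_const (p := ρ) (Or.inl (by positivity)))).const_mul c
    rw [mul_left_comm]
    refine h1.congr' ?_
    filter_upwards [eventually_mem_Ioo] with x hx
    have hp : 0 < 1 - x ^ (m + 1) := by
      have := pow_lt_one₀ hx.1.le hx.2 (show m + 1 ≠ 0 by omega)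
      linarith
    have hx1 : 0 < 1 - x := by linarith [hx.2]
    simp only [Function.comp_apply, weightedSum, Polynomial.eval_monomial]
    rw [Real.div_rpow hx1.le hp.le, show (fun n => a n * x ^ n * (c * (x ^ n) ^ m)) =
      fun n => c * (a n * (x ^ (m + 1)) ^ n) from funext fun n => by ring, tsum_mul_left]
    have := (Real.rpow_pos_of_pos hp ρ).ne'
    field_simp

theorem tendsto_exp_neg_inv :
    Tendsto (fun N : ℕ => Real.exp (-((N : ℝ)⁻¹))) atTop (𝓝[<] 1) := by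
  refine tendsto_nhdsWithin_iff.2 ⟨?_, ?_⟩
  · have := (Real.continuous_exp.tendsto (-0 : ℝ)).comp
      (tendsto_inv_atTop_zero.comp (tendsto_natCast_atTop_atTop (R := ℝ))).neg
    simpa [Function.comp_def] using this
  · filter_upwards [eventually_ge_atTop 1] with N hN
    exact Real.exp_lt_one_iff.2 (neg_lt_zero.2 (inv_pos.2 (Nat.cast_pos.2 hN)))

/-- At `x = e ^ (-1 / N)` the step at `e ^ (-1)` selects `n ≤ N`. -/
theorem exp_step {N : ℕ} (hN : 1 ≤ N) (n : ℕ) :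
    Real.exp (-1) ≤ Real.exp (-((N : ℝ)⁻¹)) ^ n ↔ n ≤ N := by
  rw [← Real.exp_nat_mul, Real.exp_le_exp, mul_neg, neg_le_neg_iff,
    mul_inv_le_iff₀ (Nat.cast_pos.2 hN), one_mul, Nat.cast_le]

theorem tendsto_mul_one_sub_exp :
    Tendsto (fun N : ℕ => (N : ℝ) * (1 - Real.exp (-((N : ℝ)⁻¹)))) atTop (𝓝 1) := by
  have h := (Real.hasDerivAt_exp 0).tendsto_slope_zero
  simp only [zero_add, Real.exp_zero, smul_eq_mul] at h
  have h0 : Tendsto (fun N : ℕ => -((N : ℝ)⁻¹)) atTop (𝓝[≠] 0) := by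
    refine tendsto_nhdsWithin_iff.2 ⟨?_, ?_⟩
    · simpa using (tendsto_inv_atTop_zero.comp (tendsto_natCast_atTop_atTop (R := ℝ))).neg
    · filter_upwards [eventually_ge_atTop 1] with N hN
      exact neg_ne_zero.2 (inv_ne_zero (Nat.cast_ne_zero.2 (by omega)))
  refine (h.comp h0).congr fun N => ?_
  simp only [Function.comp_apply, inv_neg, inv_inv]
  ring

end FA.Karamata
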