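import Fermat.Agent.Karamata.Series

/-!
# The Tauberian theorems of Hardy and Littlewood, after Karamata

The partial sum up to `N` is the weighted sum at `x = e ^ (-1 / N)` for a step function; it is
squeezed between polynomial weights. For a one-sided bound `n a n ≥ -B` the error of the squeeze is
`B (1 - x) ∑ x ^ n r (x ^ n)` (Wielandt).
-/

set_option autoImplicit false

noncomputable section

namespace FA.Karamata

open Filter Topology Set Finset
open scoped Polynomial

variable {a : ℕ → ℝ}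

/-- **The Hardy-Littlewood-Karamata theorem.** -/
theorem hardy_littlewood_karamata {ρ C : ℝ} (hρ : 0 < ρ) (ha : ∀ n, 0 ≤ a n)
    (hs : ∀ x ∈ Set.Ioo (0 : ℝ) 1, Summable fun n => a n * x ^ n)
    (h : Tendsto (fun x => (1 - x) ^ ρ * ∑' n, a n * x ^ n) (𝓝[<] 1) (𝓝 C)) :
    Tendsto (fun N : ℕ => (∑ n ∈ range (N + 1), a n) / (N : ℝ) ^ ρ) atTop
      (𝓝 (C / Real.Gamma (ρ + 1))) := by
  have hC : 0 ≤ C := by
    refine ge_of_tendsto h ?_
    filter_upwards [eventually_mem_Ioo] with x hx
    exact mul_nonneg (Real.rpow_nonneg (by linarith [hx.2]) ρ)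
      (tsum_nonneg fun n => mul_nonneg (ha n) (pow_nonneg hx.1.le n))
  set u : ℝ → ℝ := fun y => (max y (Real.exp (-1)))⁻¹ with hu
  have huc : Continuous u := by
    refine (continuous_id.max continuous_const).inv₀ fun y => ?_
    exact (lt_max_of_lt_right (Real.exp_pos _)).ne'
  set G : ℝ → ℝ := fun y => if Real.exp (-1) ≤ y then u y else 0 with hG
  have hJ : gammaMean ρ G = (Real.Gamma (ρ + 1))⁻¹ := by
    have e : Set.EqOn (fun t => kern ρ t * G (Real.exp (-t)))
        ((Set.Iic 1).indicator fun t => t ^ (ρ - 1)) (Set.Ioi 0) := fun t _ => by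
      simp only [hG, Real.exp_le_exp, neg_le_neg_iff, Set.indicator_apply, Set.mem_Iic]
      split_ifs with h1
      · simp only [hu, max_eq_left (Real.exp_le_exp.2 (neg_le_neg h1)), kern]
        rw [mul_assoc, mul_inv_cancel₀ (Real.exp_pos _).ne', mul_one]
      · rw [mul_zero]
    rw [gammaMean, MeasureTheory.setIntegral_congr_fun measurableSet_Ioi e,
      MeasureTheory.setIntegral_indicator measurableSet_Iic, Set.Ioi_inter_Iic,
      ← intervalIntegral.integral_of_le zero_le_one, integral_rpow (Or.inl (by linarith)),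
      Real.Gamma_add_one hρ.ne', sub_add_cancel, Real.one_rpow, Real.zero_rpow hρ.ne', sub_zero,
      one_div, mul_inv, mul_comm]
  -- the partial sums as weighted sums
  have hsum : ∀ N : ℕ, 1 ≤ N →
      weightedSum a G (Real.exp (-((N : ℝ)⁻¹))) = ∑ n ∈ range (N + 1), a n := by
    intro N hN
    rw [weightedSum, tsum_eq_sum (s := range (N + 1)) fun n hn => ?_]
    · refine sum_congr rfl fun n hn => ?_
      have h1 := (exp_step hN n).2 (Nat.le_of_lt_succ (Finset.mem_range.1 hn))
      simp only [hG, if_pos h1, hu, max_eq_left h1]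
      rw [mul_assoc, mul_inv_cancel₀ (by positivity), mul_one]
    · rw [Finset.mem_range] at hn
      simp only [hG, if_neg (mt (exp_step hN n).1 (by omega)), mul_zero]
  suffices key : Tendsto (fun N : ℕ => (1 - Real.exp (-((N : ℝ)⁻¹))) ^ ρ *
      ∑ n ∈ range (N + 1), a n) atTop (𝓝 (C / Real.Gamma (ρ + 1))) by
    have h1 := key.div (tendsto_mul_one_sub_exp.rpow_const (p := ρ) (Or.inl one_ne_zero))
      (by rw [Real.one_rpow]; exact one_ne_zero)
    rw [Real.one_rpow, div_one] at h1
    refine h1.congr' ?_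
    filter_upwards [eventually_ge_atTop 1] with N hN
    have hx : 0 < 1 - Real.exp (-((N : ℝ)⁻¹)) := sub_pos.2
      (Real.exp_lt_one_iff.2 (neg_lt_zero.2 (inv_pos.2 (Nat.cast_pos.2 hN))))
    simp only [Pi.div_apply]
    rw [Real.mul_rpow (Nat.cast_nonneg N) hx.le]
    rw [mul_comm ((N : ℝ) ^ ρ), mul_div_mul_left _ _ (Real.rpow_pos_of_pos hx ρ).ne']
  refine Metric.tendsto_atTop.2 fun ε hε => ?_
  obtain ⟨p, q, hpq, hp, hq, hclose⟩ := exists_polynomial_bracket hρ huc
    (continuous_const (y := (0 : ℝ))) (Real.exp (-1)) (show 0 < ε / (2 * (C + 1)) by positivity)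
  rw [show (fun y => if Real.exp (-1) ≤ y then u y else 0) = G from rfl, hJ] at hp hq
  have h1 := ((tendsto_weightedSum hs h p).comp tendsto_exp_neg_inv).eventually
    (Ioi_mem_nhds (sub_lt_self _ (show 0 < ε / 2 by positivity)))
  have h2 := ((tendsto_weightedSum hs h q).comp tendsto_exp_neg_inv).eventually
    (Iio_mem_nhds (lt_add_of_pos_right _ (show 0 < ε / 2 by positivity)))
  obtain ⟨N₀, hN₀⟩ := eventually_atTop.1 ((h1.and h2).and
    ((tendsto_exp_neg_inv.eventually eventually_mem_Ioo).and (eventually_ge_atTop 1)))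
  refine ⟨N₀, fun N hN => ?_⟩
  obtain ⟨⟨e1, e2⟩, hx, hN1⟩ := hN₀ N hN
  simp only [Function.comp_apply] at e1 e2
  rw [← hsum N hN1]
  set x := Real.exp (-((N : ℝ)⁻¹)) with hxdef
  have hx0 : 0 ≤ (1 - x) ^ ρ := Real.rpow_nonneg (by linarith [hx.2]) ρ
  have hGb : ∀ y ∈ Set.Icc (0 : ℝ) 1, |G y| ≤ (Real.exp (-1))⁻¹ := fun y _ => by
    simp only [hG]
    split_ifs
    · simp only [hu, abs_inv]
      exact inv_anti₀ (Real.exp_pos _) ((le_max_right _ _).trans (le_abs_self _))
    · rw [abs_zero]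
      positivity
  have sG := summable_weighted hs hGb hx
  have l1 : weightedSum a (fun y => p.eval y) x ≤ weightedSum a G x :=
    (summable_weighted_continuous hs p.continuous hx).tsum_le_tsum (fun n =>
      mul_le_mul_of_nonneg_left (hpq _ (pow_mem_Icc hx n)).1
        (mul_nonneg (ha n) (pow_nonneg hx.1.le n))) sG
  have l2 : weightedSum a G x ≤ weightedSum a (fun y => q.eval y) x :=
    sG.tsum_le_tsum (fun n =>
      mul_le_mul_of_nonneg_left (hpq _ (pow_mem_Icc hx n)).2
        (mul_nonneg (ha n) (pow_nonneg hx.1.le n)))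
      (summable_weighted_continuous hs q.continuous hx)
  have l1' := mul_le_mul_of_nonneg_left l1 hx0
  have l2' := mul_le_mul_of_nonneg_left l2 hx0
  have hCε : C * (ε / (2 * (C + 1))) < ε / 2 := by
    rw [← mul_div_assoc, div_lt_div_iff₀ (by positivity) two_pos]
    nlinarith
  have hgap : C * polyMean ρ q - C * polyMean ρ p ≤ C * (ε / (2 * (C + 1))) := by
    rw [← mul_sub]
    exact mul_le_mul_of_nonneg_left hclose hC
  have hp' := mul_le_mul_of_nonneg_left hp hC
  have hq' := mul_le_mul_of_nonneg_left hq hC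
  rw [Real.dist_eq, abs_lt, div_eq_mul_inv]
  constructor <;> linarith

/-- Abel means of bounded below sequences give Cesàro means. -/
theorem cesaro_of_abel {C B : ℝ} (hB : ∀ n, -B ≤ a n)
    (hs : ∀ x ∈ Set.Ioo (0 : ℝ) 1, Summable fun n => a n * x ^ n)
    (h : Tendsto (fun x => (1 - x) * ∑' n, a n * x ^ n) (𝓝[<] 1) (𝓝 C)) :
    Tendsto (fun N : ℕ => (∑ n ∈ range (N + 1), a n) / (N : ℝ)) atTop (𝓝 C) := by
  have hgeo : ∀ x ∈ Set.Ioo (0 : ℝ) 1, Summable fun n => (a n + B) * x ^ n := fun x hx =>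
    ((hs x hx).add ((summable_geometric_of_lt_one hx.1.le hx.2).mul_left B)).congr
      fun n => (add_mul _ _ _).symm
  have h' : Tendsto (fun x => (1 - x) ^ (1 : ℝ) * ∑' n, (a n + B) * x ^ n) (𝓝[<] 1)
      (𝓝 (C + B)) := by
    refine (h.add_const B).congr' ?_
    filter_upwards [eventually_mem_Ioo] with x hx
    simp only [add_mul]
    rw [Real.rpow_one, (hs x hx).tsum_add ((summable_geometric_of_lt_one hx.1.le hx.2).mul_left B),
      tsum_mul_left, tsum_geometric_of_lt_one hx.1.le hx.2, mul_add]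
    have : 1 - x ≠ 0 := by linarith [hx.2]
    field_simp
  have h1 := hardy_littlewood_karamata one_pos (fun n => by linarith [hB n]) hgeo h'
  rw [Real.Gamma_add_one one_ne_zero, Real.Gamma_one, mul_one, div_one] at h1
  have h2 : Tendsto (fun N : ℕ => B * (((N : ℝ) + 1) / N)) atTop (𝓝 B) := by
    have := (tendsto_const_nhds (x := (1 : ℝ))).add (tendsto_inv_atTop_zero.comp
      (tendsto_natCast_atTop_atTop (R := ℝ)))
    rw [add_zero] at this
    simpa using (this.congr' (by
      filter_upwards [eventually_ge_atTop 1] with N hN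
      have : (N : ℝ) ≠ 0 := Nat.cast_ne_zero.2 (by omega)
      simp only [Function.comp_apply]
      field_simp)).const_mul B
  have := h1.sub h2
  rw [add_sub_cancel_right] at this
  refine this.congr fun N => ?_
  rw [Real.rpow_one, sum_add_distrib, sum_const, card_range, nsmul_eq_mul]
  push_cast
  ring

/-- **Littlewood's theorem**, with the one-sided condition of Hardy and Littlewood. -/
theorem littlewood {A B : ℝ} (hB : ∀ n : ℕ, -B ≤ (n : ℝ) * a n)
    (hs : ∀ x ∈ Set.Ioo (0 : ℝ) 1, Summable fun n => a n * x ^ n)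
    (h : Tendsto (fun x => ∑' n, a n * x ^ n) (𝓝[<] 1) (𝓝 A)) :
    Tendsto (fun N : ℕ => ∑ n ∈ range (N + 1), a n) atTop (𝓝 A) := by
  have hB0 : 0 ≤ B := by simpa using hB 0
  set c : ℝ := Real.exp (-1) with hc
  have hc0 : 0 < c := Real.exp_pos _
  have hc1 : c < 1 := Real.exp_lt_one_iff.2 (by norm_num)
  set u : ℝ → ℝ := fun y => (max y c)⁻¹ with hu
  have huc : Continuous u := (continuous_id.max continuous_const).inv₀ fun y =>
    (lt_max_of_lt_right hc0).ne'
  set v : ℝ → ℝ := fun y => -(1 - min y c)⁻¹ with hv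
  have hvc : Continuous v := ((continuous_const.sub (continuous_id.min continuous_const)).inv₀
    fun y => (sub_pos.2 ((min_le_right y c).trans_lt hc1)).ne').neg
  refine Metric.tendsto_atTop.2 fun ε hε => ?_
  obtain ⟨p, q, hpq, -, -, hclose⟩ := exists_polynomial_bracket one_pos huc hvc c
    (show 0 < ε / (2 * (B + 1)) by positivity)
  set step : ℝ → ℝ := fun y => if c ≤ y then u y else v y with hstep
  -- `y + y (1 - y) step y` is the indicator of `[c, 1]`
  have hind : ∀ y ∈ Set.Icc (0 : ℝ) 1, y + y * (1 - y) * step y = if c ≤ y then 1 else 0 := by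
    intro y _
    simp only [hstep]
    split_ifs with h1
    · have : y ≠ 0 := (hc0.trans_le h1).ne'
      simp only [hu, max_eq_left h1]
      field_simp
      ring
    · have : 1 - y ≠ 0 := by linarith
      simp only [hv, min_eq_left (not_le.1 h1).le]
      field_simp
      ring
  have hgeom : ∀ x ∈ Set.Ioo (0 : ℝ) 1, Summable fun n : ℕ => (1 : ℝ) * x ^ n := fun x hx => by
    simpa using summable_geometric_of_lt_one hx.1.le hx.2
  have hlim1 : Tendsto (fun x : ℝ => (1 - x) ^ (1 : ℝ) * ∑' n : ℕ, (1 : ℝ) * x ^ n) (𝓝[<] 1)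
      (𝓝 1) := by
    refine tendsto_const_nhds.congr' ?_
    filter_upwards [eventually_mem_Ioo] with x hx
    simp only [one_mul, Real.rpow_one, tsum_geometric_of_lt_one hx.1.le hx.2]
    exact (mul_inv_cancel₀ (sub_pos.2 hx.2).ne').symm
  have hrpow : Tendsto (fun x => (1 - x) ^ (0 : ℝ) * ∑' n, a n * x ^ n) (𝓝[<] 1) (𝓝 A) := by
    simpa using h
  have hQ := tendsto_weightedSum (a := fun _ => (1 : ℝ)) hgeom hlim1 (q - p)
  have hP := tendsto_weightedSum hs hrpow (1 + (1 - Polynomial.X) * p)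
  have hR := tendsto_weightedSum hs hrpow (1 + (1 - Polynomial.X) * q)
  have hone : ∀ R : ℝ[X], polyMean 0 R = R.eval 1 := fun R => by
    simp [polyMean, Polynomial.eval_eq_sum]
  rw [hone] at hP hR
  simp only [Polynomial.eval_add, Polynomial.eval_one, Polynomial.eval_mul, Polynomial.eval_sub,
    Polynomial.eval_X, sub_self, zero_mul, add_zero, mul_one, Real.rpow_zero, one_mul] at hP hR
  have hqp : polyMean 1 (q - p) = polyMean 1 q - polyMean 1 p := by
    have e : ∀ r s : ℝ[X], polyMean 1 (r + s) = polyMean 1 r + polyMean 1 s := fun r s =>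
      Polynomial.sum_add_index _ _ _ (fun _ => zero_mul _) fun _ _ _ => add_mul _ _ _
    have := e (q - p) p
    rw [sub_add_cancel] at this
    linarith
  rw [one_mul, hqp] at hQ
  have hev := (((hP.comp tendsto_exp_neg_inv).eventually
      (Ioi_mem_nhds (sub_lt_self _ (show 0 < ε / 4 by positivity)))).and
    ((hR.comp tendsto_exp_neg_inv).eventually
      (Iio_mem_nhds (lt_add_of_pos_right _ (show 0 < ε / 4 by positivity))))).and
    ((hQ.comp tendsto_exp_neg_inv).eventually (Iio_mem_nhds (lt_add_of_le_of_pos hclose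
      (show 0 < ε / (4 * (B + 1)) by positivity))))
  obtain ⟨N₀, hN₀⟩ := eventually_atTop.1 (hev.and
    ((tendsto_exp_neg_inv.eventually eventually_mem_Ioo).and (eventually_ge_atTop 1)))
  refine ⟨N₀, fun N hN => ?_⟩
  obtain ⟨⟨⟨e1, e2⟩, e3⟩, hx, hN1⟩ := hN₀ N hN
  simp only [Function.comp_apply] at e1 e2 e3
  set x := Real.exp (-((N : ℝ)⁻¹)) with hxdef
  set S := ∑ n ∈ range (N + 1), a n with hS
  have hstep_sum : HasSum (fun n => a n * if c ≤ x ^ n then (1 : ℝ) else 0) S := by
    have e : S = ∑ n ∈ range (N + 1), a n * if c ≤ x ^ n then (1 : ℝ) else 0 :=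
      sum_congr rfl fun n hn => by
        rw [if_pos ((exp_step hN1 n).2 (Nat.le_of_lt_succ (Finset.mem_range.1 hn))), mul_one]
    rw [e]
    refine hasSum_sum_of_ne_finset_zero fun n hn => ?_
    rw [Finset.mem_range] at hn
    rw [if_neg (mt (exp_step hN1 n).1 (by omega)), mul_zero]
  have hpoly : ∀ R : ℝ[X], HasSum (fun n => a n * x ^ n * (1 + (1 - x ^ n) * R.eval (x ^ n)))
      (weightedSum a (fun y => 1 + (1 - y) * R.eval y) x) := fun R =>
    (summable_weighted_continuous hs (R := fun y => 1 + (1 - y) * R.eval y) (by fun_prop)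
      hx).hasSum
  have hsumQ : HasSum (fun n => B * ((1 - x) * ((1 : ℝ) * x ^ n * (q - p).eval (x ^ n))))
      (B * ((1 - x) ^ (1 : ℝ) * weightedSum (fun _ => (1 : ℝ)) (fun y => (q - p).eval y) x)) := by
    rw [Real.rpow_one]
    exact (((summable_weighted_continuous hgeom (q - p).continuous hx).hasSum).mul_left _).mul_left
      B
  have hterm : ∀ (n : ℕ) (d : ℝ), 0 ≤ d → d ≤ (q - p).eval (x ^ n) →
      -(B * ((1 - x) * ((1 : ℝ) * x ^ n * (q - p).eval (x ^ n)))) ≤
        a n * x ^ n * ((1 - x ^ n) * d) := by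
    intro n d hd0 hd
    obtain ⟨hy0, hy1⟩ := pow_mem_Icc hx n
    have hbern : 1 - x ^ n ≤ (n : ℝ) * (1 - x) := by
      have := one_add_mul_le_pow (show (-2 : ℝ) ≤ x - 1 by linarith [hx.1]) n
      rw [add_sub_cancel] at this
      linarith
    have han : -(B * (1 - x)) ≤ a n * (1 - x ^ n) := by
      rcases le_or_gt 0 (a n) with ha | ha
      · exact le_trans (neg_nonpos.2 (mul_nonneg hB0 (sub_nonneg.2 hx.2.le)))
          (mul_nonneg ha (sub_nonneg.2 hy1))
      · have h1 := mul_le_mul_of_nonpos_left hbern ha.le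
        have h2 := mul_le_mul_of_nonneg_right (hB n) (sub_nonneg.2 hx.2.le)
        linarith
    calc -(B * ((1 - x) * ((1 : ℝ) * x ^ n * (q - p).eval (x ^ n))))
        = -(B * (1 - x)) * (x ^ n * (q - p).eval (x ^ n)) := by ring
      _ ≤ -(B * (1 - x)) * (x ^ n * d) := mul_le_mul_of_nonpos_left
          (mul_le_mul_of_nonneg_left hd hy0)
          (neg_nonpos.2 (mul_nonneg hB0 (sub_nonneg.2 hx.2.le)))
      _ ≤ a n * (1 - x ^ n) * (x ^ n * d) := mul_le_mul_of_nonneg_right han (mul_nonneg hy0 hd0)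
      _ = _ := by ring
  have low := hasSum_le (fun n => ?_) hsumQ.neg (hstep_sum.sub (hpoly p))
  have up := hasSum_le (fun n => ?_) hsumQ.neg ((hpoly q).sub hstep_sum)
  rotate_left
  · have hy := pow_mem_Icc hx n
    obtain ⟨g1, g2⟩ := hpq _ hy
    refine (hterm n (q.eval (x ^ n) - step (x ^ n)) (sub_nonneg.2 g2)
      (by rw [Polynomial.eval_sub]; simp only [hstep]; linarith)).trans_eq ?_
    rw [← hind _ hy]
    ring
  · have hy := pow_mem_Icc hx n
    obtain ⟨g1, g2⟩ := hpq _ hy
    refine (hterm n (step (x ^ n) - p.eval (x ^ n)) (sub_nonneg.2 g1)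
      (by rw [Polynomial.eval_sub]; simp only [hstep]; linarith)).trans_eq ?_
    rw [← hind _ hy]
    ring
  simp only [Polynomial.eval_sub] at e3 low up
  have e3' := mul_le_mul_of_nonneg_left (le_of_lt e3) hB0
  have hBε : B * (ε / (2 * (B + 1)) + ε / (4 * (B + 1))) ≤ 3 * ε / 4 := by
    rw [show ε / (2 * (B + 1)) + ε / (4 * (B + 1)) = 3 * ε / (4 * (B + 1)) by field_simp; ring,
      ← mul_div_assoc, div_le_div_iff₀ (by positivity) (by norm_num)]
    nlinarith
  rw [Real.dist_eq, abs_lt]
  constructor <;> linarith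

end FA.Karamata
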